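import Mathlib
import Fermat.Prelude.Def_Stickelberger_Basic

/-!
# T-CFT interface (helper14): class field theory needed for S14

All statements are `Prop`-valued definitions; the glue theorems take them as hypotheses.
Namespace `H14CFT`.  Nothing here is proved by `sorry`.
-/

set_option autoImplicit false

namespace H14CFT

open NumberField
open scoped Pointwise

section basic

variable (K L : Type) [Field K] [NumberField K] [Field L] [NumberField L] [Algebra K L]

/-- The prime `P` of `𝓞 K` splits completely in `L`: there are `[L:K]` primes of `𝓞 L` over it. -/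
def SplitsCompletely (P : Ideal (𝓞 K)) : Prop :=
  (P.primesOver (𝓞 L)).ncard = Module.finrank K L

/-- `L/K` (Galois) is unramified at every finite prime: all inertia groups are trivial. -/
def UnramifiedEverywhere [IsGalois K L] : Prop :=
  ∀ (Q : Ideal (𝓞 L)), Q.IsPrime → Q ≠ ⊥ →
    ∀ σ : L ≃ₐ[K] L, (∀ x : 𝓞 L, σ • x - x ∈ Q) → σ = 1

/-- The subgroup of the class group of `K` generated by the classes of the primes that split
completely in `L` and by all `p`-th powers.  (For `L/K` cyclic unramified of prime degree `p`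
this is the image of the norm `Cl(L) → Cl(K)`.) -/
noncomputable def normClasses (p : ℕ) : Subgroup (ClassGroup (𝓞 K)) :=
  Subgroup.closure
    ({c | ∃ P : nonZeroDivisors (Ideal (𝓞 K)), P.1.IsPrime ∧ SplitsCompletely K L P.1 ∧
        c = ClassGroup.mk0 P} ∪ {c | ∃ d : ClassGroup (𝓞 K), c = d ^ p})

end basic

/-- **(FI) First inequality** (Herbrand quotient): for `L/K` cyclic unramified of odd prime
degree `p` over `K = ℚ(ζ_p)`, the norm classes do not fill the class group. -/
def FirstInequality (p : ℕ) : Prop :=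
  ∀ (K L : Type) [Field K] [NumberField K] [Field L] [NumberField L] [Algebra K L]
    [IsGalois K L] [IsCyclotomicExtension {p} ℚ K],
    p.Prime → p ≠ 2 → Module.finrank K L = p → UnramifiedEverywhere K L →
    normClasses K L p ≠ ⊤

/-- **(SI) Second inequality** (analytic): if `M/E` is Galois of degree `n` and a subgroup `𝒩` of
the class group of `E` contains the classes of all primes (outside `D`) that split completely in
`M`, then `𝒩` has index at most `n`. -/
def SecondInequality : Prop :=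
  ∀ (E M : Type) [Field E] [NumberField E] [Field M] [NumberField M] [Algebra E M]
    [IsGalois E M] (D : ℕ) (𝒩 : Subgroup (ClassGroup (𝓞 E))),
    D ≠ 0 →
    (∀ P : nonZeroDivisors (Ideal (𝓞 E)), P.1.IsPrime → ¬ (Ideal.absNorm P.1 ∣ D) →
      SplitsCompletely E M P.1 → ClassGroup.mk0 P ∈ 𝒩) →
    𝒩.index ≤ Module.finrank E M

/-- **(NS) Existence of non-split primes of degree one** (analytic, Dedekind zeta functions):
a Galois extension `M/E` of degree `> 1` has a prime of `E` of prime absolute norm not dividing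
`D` that does not split completely in `M`. -/
def NonSplitPrimeExists : Prop :=
  ∀ (E M : Type) [Field E] [NumberField E] [Field M] [NumberField M] [Algebra E M]
    [IsGalois E M] (D : ℕ), D ≠ 0 → 1 < Module.finrank E M →
    ∃ P : Ideal (𝓞 E), P.IsPrime ∧ P ≠ ⊥ ∧ (Ideal.absNorm P).Prime ∧
      ¬ (Ideal.absNorm P ∣ D) ∧ ¬ SplitsCompletely E M P

/-- **(ST) Stickelberger for Jacobi sums**: for a prime `P` of `ℤ[ζ_p]` of prime norm `q ≠ p`,
the ideal `∏_{0 < c < p/2} σ_c⁻¹ P` is principal (generated by the Jacobi sum `J(χ_P, χ_P)`);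
here `s c = σ_c` is any automorphism with `σ_c ζ = ζ ^ c`. -/
def StickelbergerJacobi (p : ℕ) : Prop :=
  ∀ (K : Type) [Field K] [NumberField K] [IsCyclotomicExtension {p} ℚ K],
    p.Prime → p ≠ 2 →
    ∀ (P : Ideal (𝓞 K)), P.IsPrime → (Ideal.absNorm P).Prime → Ideal.absNorm P ≠ p →
    ∀ (ζ : K) (s : ℕ → (K ≃ₐ[ℚ] K)), IsPrimitiveRoot ζ p →
      (∀ c ∈ Stickelberger.exponentSet p, s c ζ = ζ ^ c) →
      (∏ c ∈ Stickelberger.exponentSet p, ((s c)⁻¹ • P : Ideal (𝓞 K))).IsPrincipal

/-- **(TP) Two-prime relation** (output of the cyclotomic crossing = Artin reciprocity):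
for two primes `P₁, P₂` of `K = ℚ(ζ_p)` of prime norm `≠ p` with Frobenius elements `σ₁ = σ₂ ^ a`
in the unramified cyclic extension `L/K` of degree `p`, the class of `P₁ P₂^{-a}` is a norm class. -/
def TwoPrimeRelation (p : ℕ) : Prop :=
  ∀ (K L : Type) [Field K] [NumberField K] [Field L] [NumberField L] [Algebra K L]
    [IsGalois K L] [IsCyclotomicExtension {p} ℚ K],
    p.Prime → p ≠ 2 → Module.finrank K L = p → UnramifiedEverywhere K L →
    ∀ (P₁ P₂ : nonZeroDivisors (Ideal (𝓞 K))) (Q₁ Q₂ : Ideal (𝓞 L)) (σ₁ σ₂ : L ≃ₐ[K] L) (a : ℕ),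
      P₁.1.IsPrime → P₂.1.IsPrime →
      (Ideal.absNorm P₁.1).Prime → (Ideal.absNorm P₂.1).Prime →
      Ideal.absNorm P₁.1 ≠ p → Ideal.absNorm P₂.1 ≠ p →
      Q₁.IsPrime → Q₂.IsPrime → Q₁.under (𝓞 K) = P₁.1 → Q₂.under (𝓞 K) = P₂.1 →
      IsArithFrobAt (𝓞 K) σ₁ Q₁ → IsArithFrobAt (𝓞 K) σ₂ Q₂ →
      σ₁ = σ₂ ^ a →
      ClassGroup.mk0 P₁ * (ClassGroup.mk0 P₂ ^ a)⁻¹ ∈ normClasses K L p

/-- **(★) Main arithmetic statement**: there is no cyclic degree-`p` extension `L` of
`K = ℚ(ζ_p)`, Galois over `ℚ`, unramified at all finite primes, on whose Galois group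
`Gal(K/ℚ)` acts through `ω⁻¹` (i.e. `σ⁻¹ τ σ = τ ^ k` whenever `σ ζ = ζ ^ k`). -/
def NoTwistedUnramified (p : ℕ) : Prop :=
  ∀ (K L : Type) [Field K] [NumberField K] [Field L] [NumberField L] [Algebra K L]
    [IsGalois K L] [IsGalois ℚ L] [IsCyclotomicExtension {p} ℚ K],
    p.Prime → p ≠ 2 → Module.finrank K L = p → UnramifiedEverywhere K L →
    (∀ (σ : L ≃ₐ[ℚ] L) (τ : L ≃ₐ[K] L) (ζ : K) (k : ℕ), IsPrimitiveRoot ζ p →
      σ (algebraMap K L ζ) = algebraMap K L ζ ^ k →
      σ⁻¹ * τ.restrictScalars ℚ * σ = (τ.restrictScalars ℚ) ^ k) →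
    False

end H14CFT
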