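import Fermat.Agent.CFT.Defs

/-!
# T-CFT, module MAIN (helper14)

`NoTwistedUnramified p` from `FirstInequality p`, `TwoPrimeRelation p`, `StickelbergerJacobi p`.
-/

set_option autoImplicit false
set_option linter.style.haveILetI false
set_option linter.unusedSectionVars false

namespace H14CFT
open NumberField Polynomial
open scoped Pointwise nonZeroDivisors

/-- A finite field all of whose elements satisfy `x ^ N = x` has at most `N` elements. -/
lemma h14_card_le_of_pow_eq (l : Type) [Field l] [Finite l] (N : ℕ) (hN : 1 < N)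
    (h : ∀ x : l, x ^ N = x) : Nat.card l ≤ N := by
  classical
  haveI := Fintype.ofFinite l
  have hne : (X ^ N - X : l[X]) ≠ 0 := FiniteField.X_pow_card_sub_X_ne_zero l hN
  have hsub : (Finset.univ : Finset l) ⊆ (X ^ N - X : l[X]).roots.toFinset := by
    intro x _
    rw [Multiset.mem_toFinset, mem_roots hne]
    simp [h x]
  calc Nat.card l = (Finset.univ : Finset l).card := by
        rw [Finset.card_univ, Nat.card_eq_fintype_card]
    _ ≤ (X ^ N - X : l[X]).roots.toFinset.card := Finset.card_le_card hsub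
    _ ≤ Multiset.card (X ^ N - X : l[X]).roots := Multiset.toFinset_card_le _
    _ ≤ (X ^ N - X : l[X]).natDegree := card_roots' _
    _ = N := FiniteField.X_pow_card_sub_X_natDegree_eq l hN

section general

variable {K L : Type} [Field K] [NumberField K] [Field L] [NumberField L] [Algebra K L]
  [IsGalois K L]

lemma h14_finite_quot (Q : Ideal (𝓞 L)) (hQ : Q ≠ ⊥) : Finite (𝓞 L ⧸ Q) :=
  Ideal.finiteQuotientOfFreeOfNeBot Q hQ

lemma h14_card_gal {p : ℕ} (hdeg : Module.finrank K L = p) : Nat.card (L ≃ₐ[K] L) = p := by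
  rw [IsGalois.card_aut_eq_finrank, hdeg]

lemma h14_gal_comm {p : ℕ} (hp : p.Prime) (hdeg : Module.finrank K L = p) (a b : L ≃ₐ[K] L) :
    a * b = b * a := by
  haveI : Fact p.Prime := ⟨hp⟩
  haveI : IsCyclic (L ≃ₐ[K] L) := isCyclic_of_prime_card (h14_card_gal hdeg)
  haveI : IsMulCommutative (L ≃ₐ[K] L) := IsCyclic.isMulCommutative
  exact mul_comm' a b

/-- trivial inertia (as a subgroup) from `UnramifiedEverywhere` -/
lemma h14_inertia_eq_bot (hunr : UnramifiedEverywhere K L) (Q : Ideal (𝓞 L)) [Q.IsPrime]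
    (hQ : Q ≠ ⊥) : Q.inertia (L ≃ₐ[K] L) = ⊥ := by
  rw [eq_bot_iff]
  intro σ hσ
  rw [Subgroup.mem_bot]
  exact hunr Q inferInstance hQ σ (fun x => hσ x)

lemma h14_frob_unique (hunr : UnramifiedEverywhere K L) (Q : Ideal (𝓞 L)) [Q.IsPrime]
    (hQ : Q ≠ ⊥) {σ σ' : L ≃ₐ[K] L}
    (h : IsArithFrobAt (𝓞 K) σ Q) (h' : IsArithFrobAt (𝓞 K) σ' Q) : σ = σ' := by
  have h1 := IsArithFrobAt.mul_inv_mem_inertia h h'
  have h2 : σ * σ'⁻¹ = 1 := by
    apply hunr Q inferInstance hQ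
    intro x
    exact h1 x
  exact mul_inv_eq_one.mp h2

lemma h14_frob_exists (Q : Ideal (𝓞 L)) [Q.IsPrime] (hQ : Q ≠ ⊥) :
    ∃ σ : L ≃ₐ[K] L, IsArithFrobAt (𝓞 K) σ Q := by
  haveI := h14_finite_quot Q hQ
  exact IsArithFrobAt.exists_of_isInvariant (𝓞 K) (L ≃ₐ[K] L) Q

lemma h14_frob_of_same_under {p : ℕ} (hp : p.Prime) (hdeg : Module.finrank K L = p)
    (Q Q' : Ideal (𝓞 L)) [Q.IsPrime] [Q'.IsPrime]
    (h : Q.under (𝓞 K) = Q'.under (𝓞 K)) {σ : L ≃ₐ[K] L}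
    (hσ : IsArithFrobAt (𝓞 K) σ Q) : IsArithFrobAt (𝓞 K) σ Q' := by
  obtain ⟨τ, hτ⟩ := Algebra.IsInvariant.exists_smul_of_under_eq (𝓞 K) (𝓞 L) (L ≃ₐ[K] L) Q Q' h
  have h1 := hσ.conj τ
  rw [← hτ] at h1
  have h2 : τ * σ * τ⁻¹ = σ := by
    rw [h14_gal_comm hp hdeg τ σ, mul_assoc, mul_inv_cancel, mul_one]
  rwa [h2] at h1

lemma h14_inertiaDeg_eq_one_of_frob_one (Q : Ideal (𝓞 L)) [Q.IsPrime] (hQ : Q ≠ ⊥)
    (h : IsArithFrobAt (𝓞 K) (1 : L ≃ₐ[K] L) Q) : Q.inertiaDeg (𝓞 K) = 1 := by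
  have hQmax : Q.IsMaximal := Ideal.IsPrime.isMaximal inferInstance hQ
  have hP0 : Q.under (𝓞 K) ≠ ⊥ := Ideal.under_ne_bot _ hQ
  have hPmax : (Q.under (𝓞 K)).IsMaximal := Ideal.IsPrime.isMaximal inferInstance hP0
  have hfk : Finite (𝓞 K ⧸ Q.under (𝓞 K)) := Ideal.finiteQuotientOfFreeOfNeBot _ hP0
  have hfl : Finite (𝓞 L ⧸ Q) := Ideal.finiteQuotientOfFreeOfNeBot _ hQ
  rw [Ideal.inertiaDeg_eq_of_isMaximal (Q.under (𝓞 K)) Q]
  letI : Field (𝓞 K ⧸ Q.under (𝓞 K)) := Ideal.Quotient.field _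
  letI : Field (𝓞 L ⧸ Q) := Ideal.Quotient.field _
  set N := Nat.card (𝓞 K ⧸ Q.under (𝓞 K)) with hN
  have hN1 : 1 < N := Finite.one_lt_card
  have hpow : ∀ x : 𝓞 L ⧸ Q, x ^ N = x := by
    intro x
    obtain ⟨y, rfl⟩ := Ideal.Quotient.mk_surjective x
    have := h y
    rw [← map_pow, eq_comm, Ideal.Quotient.eq]
    simpa using this
  have hle := h14_card_le_of_pow_eq (𝓞 L ⧸ Q) N hN1 hpow
  have hcard := Module.natCard_eq_pow_finrank (K := 𝓞 K ⧸ Q.under (𝓞 K)) (V := 𝓞 L ⧸ Q)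
  rw [hcard, ← hN] at hle
  have hpos : 0 < Module.finrank (𝓞 K ⧸ Q.under (𝓞 K)) (𝓞 L ⧸ Q) := Module.finrank_pos
  by_contra hne
  have h2 : 2 ≤ Module.finrank (𝓞 K ⧸ Q.under (𝓞 K)) (𝓞 L ⧸ Q) := by omega
  have : N ^ 2 ≤ N := le_trans (Nat.pow_le_pow_right (by omega) h2) hle
  nlinarith

/-- trivial Frobenius (in an unramified extension) means the prime splits completely -/
lemma h14_splits_of_frob_one (hunr : UnramifiedEverywhere K L) (Q : Ideal (𝓞 L)) [Q.IsPrime]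
    (hQ : Q ≠ ⊥) (h : IsArithFrobAt (𝓞 K) (1 : L ≃ₐ[K] L) Q) :
    SplitsCompletely K L (Q.under (𝓞 K)) := by
  have hP0 : Q.under (𝓞 K) ≠ ⊥ := Ideal.under_ne_bot _ hQ
  have hPmax : (Q.under (𝓞 K)).IsMaximal := Ideal.IsPrime.isMaximal inferInstance hP0
  have hfk : Finite (𝓞 K ⧸ Q.under (𝓞 K)) := Ideal.finiteQuotientOfFreeOfNeBot _ hP0
  have H := Ideal.ncard_primesOver_mul_card_inertia_mul_finrank (G := L ≃ₐ[K] L)
    (Q.under (𝓞 K)) Q
  rw [h14_inertia_eq_bot hunr Q hQ, h14_inertiaDeg_eq_one_of_frob_one Q hQ h] at H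
  simp only [Subgroup.card_bot, mul_one] at H
  rw [SplitsCompletely, H, IsGalois.card_aut_eq_finrank]

end general

section tower

variable {K L : Type} [Field K] [NumberField K] [Field L] [NumberField L] [Algebra K L]
  [IsGalois ℚ K]

/-- compatibility of the Galois actions on integers with restriction to the normal subfield `K` -/
lemma h14_algebraMap_smul (σ : L ≃ₐ[ℚ] L) (x : 𝓞 K) :
    algebraMap (𝓞 K) (𝓞 L) (σ.restrictNormal K • x) = σ • algebraMap (𝓞 K) (𝓞 L) x := by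
  apply RingOfIntegers.ext
  show algebraMap K L ((σ.restrictNormal K) (x : K)) = σ (algebraMap K L (x : K))
  exact AlgEquiv.restrictNormal_commutes σ K (x : K)

lemma h14_under_smul (σ : L ≃ₐ[ℚ] L) (Q : Ideal (𝓞 L)) :
    (σ • Q).under (𝓞 K) = σ.restrictNormal K • Q.under (𝓞 K) := by
  ext x
  rw [Ideal.mem_pointwise_smul_iff_inv_smul_mem, Ideal.under_def, Ideal.mem_comap,
    Ideal.mem_pointwise_smul_iff_inv_smul_mem, Ideal.under_def, Ideal.mem_comap]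
  have h := h14_algebraMap_smul (K := K) σ⁻¹ x
  have h2 : (σ⁻¹).restrictNormal K = (σ.restrictNormal K)⁻¹ := by
    exact map_inv (AlgEquiv.restrictNormalHom K) σ
  rw [h2] at h
  rw [h]

lemma h14_card_quot_smul (δ : K ≃ₐ[ℚ] K) (P : Ideal (𝓞 K)) :
    Nat.card (𝓞 K ⧸ (δ • P)) = Nat.card (𝓞 K ⧸ P) := by
  have e : 𝓞 K ⧸ P ≃+* 𝓞 K ⧸ (δ • P) :=
    Ideal.quotientEquiv P (δ • P) (MulSemiringAction.toRingEquiv (K ≃ₐ[ℚ] K) (𝓞 K) δ)
      (by rw [Ideal.pointwise_smul_def]; rfl)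
  exact (Nat.card_congr e.toEquiv).symm

lemma h14_absNorm_smul (δ : K ≃ₐ[ℚ] K) (P : Ideal (𝓞 K)) :
    Ideal.absNorm (δ • P) = Ideal.absNorm P := by
  rw [Ideal.absNorm_apply, Ideal.absNorm_apply, Submodule.cardQuot_apply,
    Submodule.cardQuot_apply]
  exact h14_card_quot_smul δ P

/-- conjugating a Frobenius element by an automorphism of `L/ℚ` -/
lemma h14_frob_conj [IsGalois K L] (σ : L ≃ₐ[ℚ] L) (Q : Ideal (𝓞 L)) (τ τ' : L ≃ₐ[K] L)
    (hτ : IsArithFrobAt (𝓞 K) τ Q) (h : ∀ x : L, τ' x = σ (τ (σ⁻¹ x))) :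
    IsArithFrobAt (𝓞 K) τ' (σ • Q) := by
  intro x
  have hcard : Nat.card (𝓞 K ⧸ (σ • Q).under (𝓞 K)) = Nat.card (𝓞 K ⧸ Q.under (𝓞 K)) := by
    rw [h14_under_smul σ Q]
    exact h14_card_quot_smul _ _
  rw [hcard, Ideal.mem_pointwise_smul_iff_inv_smul_mem]
  have h1 := hτ (σ⁻¹ • x)
  have h2 : σ⁻¹ • ((MulSemiringAction.toAlgHom (𝓞 K) (𝓞 L) τ') x
      - x ^ Nat.card (𝓞 K ⧸ Q.under (𝓞 K)))
      = (MulSemiringAction.toAlgHom (𝓞 K) (𝓞 L) τ) (σ⁻¹ • x)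
        - (σ⁻¹ • x) ^ Nat.card (𝓞 K ⧸ Q.under (𝓞 K)) := by
    rw [smul_sub, smul_pow']
    congr 1
    apply RingOfIntegers.ext
    show σ⁻¹ (τ' (x : L)) = τ (σ⁻¹ (x : L))
    rw [h]
    simp
  rw [h2]
  exact h1

end tower

/-- the twist hypothesis of `NoTwistedUnramified` -/
def Twist (p : ℕ) (K L : Type) [Field K] [NumberField K] [Field L] [NumberField L]
    [Algebra K L] : Prop :=
  ∀ (σ : L ≃ₐ[ℚ] L) (τ : L ≃ₐ[K] L) (ζ : K) (k : ℕ), IsPrimitiveRoot ζ p →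
    σ (algebraMap K L ζ) = algebraMap K L ζ ^ k →
    σ⁻¹ * τ.restrictScalars ℚ * σ = (τ.restrictScalars ℚ) ^ k

section cyclo

variable {p : ℕ} {K L : Type} [Field K] [NumberField K] [Field L] [NumberField L] [Algebra K L]
  [IsGalois K L] [IsGalois ℚ L] [IsCyclotomicExtension {p} ℚ K]

lemma h14_restrictScalars_pow (τ : L ≃ₐ[K] L) (k : ℕ) (x : L) :
    ((τ.restrictScalars ℚ) ^ k) x = (τ ^ k) x := by
  induction k generalizing x with
  | zero => simp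
  | succ n ih =>
    rw [pow_succ, pow_succ, AlgEquiv.mul_apply, AlgEquiv.mul_apply, ih]
    rfl

lemma h14_orderOf_eq (hp : p.Prime) (hdeg : Module.finrank K L = p) {τ : L ≃ₐ[K] L}
    (hτ : τ ≠ 1) : orderOf τ = p := by
  have h1 : orderOf τ ∣ p := by
    rw [← h14_card_gal hdeg]
    exact orderOf_dvd_natCard τ
  rcases (Nat.dvd_prime hp).mp h1 with h | h
  · exact absurd (orderOf_eq_one_iff.mp h) hτ
  · exact h

/-- Key lemma: if the Frobenius at `Q` is nontrivial, then only the identity of `Gal(K/ℚ)`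
fixes the prime `P = Q ∩ 𝓞 K`. -/
lemma h14_stab_trivial (hp : p.Prime) (hdeg : Module.finrank K L = p)
    (hunr : UnramifiedEverywhere K L) (htw : Twist p K L)
    (Q : Ideal (𝓞 L)) [Q.IsPrime] (hQ : Q ≠ ⊥) (τ : L ≃ₐ[K] L)
    (hτ : IsArithFrobAt (𝓞 K) τ Q) (hτ1 : τ ≠ 1)
    (δ : K ≃ₐ[ℚ] K) (hδ : δ • Q.under (𝓞 K) = Q.under (𝓞 K)) : δ = 1 := by
  haveI : NeZero p := ⟨hp.ne_zero⟩
  haveI : IsGalois ℚ K := IsCyclotomicExtension.isGalois {p} ℚ K
  obtain ⟨σ, hσ⟩ := AlgEquiv.restrictNormalHom_surjective L δ⁻¹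
  have hσ' : σ.restrictNormal K = δ⁻¹ := hσ
  -- primitive root
  have hζ := IsCyclotomicExtension.zeta_spec p ℚ K
  set ζ := IsCyclotomicExtension.zeta p ℚ K with hζdef
  have hζL : IsPrimitiveRoot (algebraMap K L ζ) p :=
    hζ.map_of_injective (algebraMap K L).injective
  have hpow : (σ (algebraMap K L ζ)) ^ p = 1 := by
    rw [← map_pow, hζL.pow_eq_one, map_one]
  obtain ⟨k, hk, hkeq⟩ := hζL.eq_pow_of_pow_eq_one hpow
  have htw' := htw σ τ ζ k hζ hkeq.symm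
  -- the prime σ⁻¹ • Q
  have hunder : (σ⁻¹ • Q).under (𝓞 K) = Q.under (𝓞 K) := by
    rw [h14_under_smul (K := K) σ⁻¹ Q]
    have : (σ⁻¹).restrictNormal K = δ := by
      have := map_inv (AlgEquiv.restrictNormalHom K) σ
      rw [show (AlgEquiv.restrictNormalHom K) σ = δ⁻¹ from hσ, inv_inv] at this
      exact this
    rw [this, hδ]
  have hfrob1 : IsArithFrobAt (𝓞 K) (τ ^ k) (σ⁻¹ • Q) := by
    apply h14_frob_conj (K := K) σ⁻¹ Q τ (τ ^ k) hτ
    intro x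
    rw [inv_inv, ← h14_restrictScalars_pow, ← htw']
    rfl
  have hfrob2 : IsArithFrobAt (𝓞 K) τ (σ⁻¹ • Q) :=
    h14_frob_of_same_under hp hdeg Q (σ⁻¹ • Q) hunder.symm hτ
  have hne : σ⁻¹ • Q ≠ ⊥ := by
    intro h
    apply hQ
    have : Q = σ • (σ⁻¹ • Q) := by rw [smul_inv_smul]
    rw [this, h]
    simp
  have heq : τ ^ k = τ := h14_frob_unique hunr (σ⁻¹ • Q) hne hfrob1 hfrob2
  -- so k = 1
  have hord := h14_orderOf_eq hp hdeg hτ1
  have hk1 : k = 1 := by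
    rcases Nat.eq_zero_or_pos k with h0 | hpos
    · rw [h0, pow_zero] at heq
      exact absurd heq.symm hτ1
    · have h1 : τ ^ (k - 1) = 1 := by
        have : τ ^ (k - 1) * τ = 1 * τ := by
          rw [← pow_succ, Nat.sub_add_cancel hpos, one_mul, heq]
        exact mul_right_cancel this
      have h2 : p ∣ k - 1 := by
        rw [← hord]
        exact orderOf_dvd_of_pow_eq_one h1
      have h3 : k - 1 = 0 := Nat.eq_zero_of_dvd_of_lt h2 (by omega)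
      omega
  -- hence σ fixes ζ, hence δ⁻¹ = 1
  rw [hk1, pow_one] at hkeq
  have h4 : δ⁻¹ ζ = ζ := by
    apply (algebraMap K L).injective
    rw [← hσ', AlgEquiv.restrictNormal_commutes, ← hkeq]
  have h5 : IsCyclotomicExtension.Rat.galEquivZMod p K δ⁻¹ = 1 := by
    have h6 := IsCyclotomicExtension.Rat.galEquivZMod_apply_of_pow_eq p K δ⁻¹ hζ.pow_eq_one
    rw [h4] at h6
    have h7 : ζ ^ 1 = ζ ^ (IsCyclotomicExtension.Rat.galEquivZMod p K δ⁻¹).val.val := by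
      rw [pow_one]; exact h6
    have h8 := (hζ.pow_inj (hp.one_lt) (ZMod.val_lt _)) h7
    ext
    rw [Units.val_one]
    have : ((IsCyclotomicExtension.Rat.galEquivZMod p K δ⁻¹).val.val : ZMod p) = ((1 : ℕ) : ZMod p) := by
      rw [← h8]
    simpa using this
  have h9 : δ⁻¹ = 1 := by
    have := (IsCyclotomicExtension.Rat.galEquivZMod p K).injective
      (h5.trans (map_one _).symm)
    exact this
  exact inv_eq_one.mp h9

end cyclo

section cyclo2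

variable {p : ℕ} {K : Type} [Field K] [NumberField K] [IsCyclotomicExtension {p} ℚ K]

lemma h14_under_int_smul (δ : K ≃ₐ[ℚ] K) (P : Ideal (𝓞 K)) :
    (δ • P).under ℤ = P.under ℤ := by
  ext x
  rw [Ideal.under_def, Ideal.mem_comap, Ideal.mem_pointwise_smul_iff_inv_smul_mem,
    Ideal.under_def, Ideal.mem_comap]
  have : δ⁻¹ • (algebraMap ℤ (𝓞 K) x) = algebraMap ℤ (𝓞 K) x := by
    apply RingOfIntegers.ext
    show δ⁻¹ ((algebraMap ℤ (𝓞 K) x : 𝓞 K) : K) = _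
    simp
  rw [this]

/-- If no nontrivial element of `Gal(K/ℚ)` fixes the prime `P`, then `P` has prime norm `≠ p`. -/
lemma h14_absNorm_prime (hp : p.Prime) (hp2 : p ≠ 2) (P : Ideal (𝓞 K)) [P.IsPrime] (hP : P ≠ ⊥)
    (hstab : ∀ δ : K ≃ₐ[ℚ] K, δ • P = P → δ = 1) :
    (Ideal.absNorm P).Prime ∧ Ideal.absNorm P ≠ p := by
  haveI : NeZero p := ⟨hp.ne_zero⟩
  haveI : Fact p.Prime := ⟨hp⟩
  haveI : IsGalois ℚ K := IsCyclotomicExtension.isGalois {p} ℚ K
  haveI : NeZero P := ⟨hP⟩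
  have hfin : Finite (𝓞 K ⧸ P) := Ideal.finiteQuotientOfFreeOfNeBot P hP
  have hPmax : P.IsMaximal := Ideal.IsPrime.isMaximal inferInstance hP
  -- the rational prime below
  have hℓ : (Ideal.absNorm (P.under ℤ)).Prime := Nat.absNorm_under_prime P
  set ℓ := Ideal.absNorm (P.under ℤ) with hℓdef
  have hcardℤ : Nat.card (ℤ ⧸ P.under ℤ) = ℓ := by
    rw [hℓdef, Ideal.absNorm_apply, Submodule.cardQuot_apply]
  -- Frobenius for K/ℚ at P is trivial
  obtain ⟨δ₀, hδ₀⟩ := IsArithFrobAt.exists_of_isInvariant ℤ (K ≃ₐ[ℚ] K) P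
  have hδ₀1 : δ₀ = 1 := hstab δ₀ (by
    have := hδ₀.mem_stabilizer
    rwa [MulAction.mem_stabilizer_iff] at this)
  rw [hδ₀1] at hδ₀
  -- so every element of the residue field satisfies x ^ ℓ = x
  letI : Field (𝓞 K ⧸ P) := Ideal.Quotient.field _
  have hpow : ∀ x : 𝓞 K ⧸ P, x ^ ℓ = x := by
    intro x
    obtain ⟨y, rfl⟩ := Ideal.Quotient.mk_surjective x
    have := hδ₀ y
    rw [hcardℤ] at this
    rw [← map_pow, eq_comm, Ideal.Quotient.eq]
    simpa using this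
  have hle := h14_card_le_of_pow_eq (𝓞 K ⧸ P) ℓ hℓ.one_lt hpow
  have hnorm : Ideal.absNorm P = Nat.card (𝓞 K ⧸ P) := by
    rw [Ideal.absNorm_apply, Submodule.cardQuot_apply]
  have hdvd : ℓ ∣ Ideal.absNorm P := Int.absNorm_under_dvd_absNorm P
  have hpos : 0 < Ideal.absNorm P := by
    rw [hnorm]; exact Nat.card_pos
  have heq : Ideal.absNorm P = ℓ :=
    le_antisymm (hnorm ▸ hle) (Nat.le_of_dvd hpos hdvd)
  refine ⟨heq ▸ hℓ, ?_⟩
  intro hPp
  -- P lies over p, so it is fixed by all of Gal(K/ℚ)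
  have hℓp : ℓ = p := heq ▸ hPp
  have hunder : P.under ℤ = Ideal.span {(p : ℤ)} := by
    rw [← Int.ideal_span_absNorm_eq_self (P.under ℤ), ← hℓdef, hℓp]
  haveI hlo : P.LiesOver (Ideal.span {(p : ℤ)}) := ⟨hunder.symm⟩
  have hζ := IsCyclotomicExtension.zeta_spec p ℚ K
  have hall : ∀ δ : K ≃ₐ[ℚ] K, δ = 1 := by
    intro δ
    apply hstab
    haveI : (δ • P).LiesOver (Ideal.span {(p : ℤ)}) :=
      ⟨by rw [h14_under_int_smul, hunder]⟩
    rw [IsCyclotomicExtension.Rat.eq_span_zeta_sub_one_of_liesOver' p K hζ (δ • P),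
      ← IsCyclotomicExtension.Rat.eq_span_zeta_sub_one_of_liesOver' p K hζ P]
  -- but Gal(K/ℚ) has p - 1 ≥ 2 elements
  have hcard : Nat.card (K ≃ₐ[ℚ] K) = p - 1 := by
    rw [Nat.card_congr (IsCyclotomicExtension.Rat.galEquivZMod p K).toEquiv,
      Nat.card_eq_fintype_card, ZMod.card_units_eq_totient, Nat.totient_prime hp]
  have hsub : Subsingleton (K ≃ₐ[ℚ] K) := ⟨fun a b => (hall a).trans (hall b).symm⟩
  have : Nat.card (K ≃ₐ[ℚ] K) ≤ 1 := Finite.card_le_one_iff_subsingleton.mpr hsub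
  have h2 : 2 ≤ p := hp.two_le
  omega

end cyclo2


section classgroup

variable {R : Type} [CommRing R] [IsDedekindDomain R]

lemma h14_mk0_mem_of_primes (N : Subgroup (ClassGroup R))
    (h : ∀ P : (Ideal R)⁰, P.1.IsPrime → ClassGroup.mk0 P ∈ N) (I : Ideal R) :
    ∀ hI : I ∈ (Ideal R)⁰, ClassGroup.mk0 ⟨I, hI⟩ ∈ N := by
  refine UniqueFactorizationMonoid.induction_on_prime (α := Ideal R)
    (P := fun I => ∀ hI : I ∈ (Ideal R)⁰, ClassGroup.mk0 ⟨I, hI⟩ ∈ N) I ?_ ?_ ?_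
  · intro hI
    exact absurd rfl (nonZeroDivisors.ne_zero hI)
  · intro x hx hI
    have hx1 : x = 1 := by
      rw [Ideal.one_eq_top]
      exact Ideal.isUnit_iff.mp hx
    subst hx1
    have : (⟨1, hI⟩ : (Ideal R)⁰) = 1 := rfl
    rw [this, map_one]
    exact N.one_mem
  · intro a P ha hP ih hI
    have hP0 : P ≠ 0 := hP.ne_zero
    have hPm : P ∈ (Ideal R)⁰ := mem_nonZeroDivisors_of_ne_zero hP0
    have ham : a ∈ (Ideal R)⁰ := mem_nonZeroDivisors_of_ne_zero ha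
    have : (⟨P * a, hI⟩ : (Ideal R)⁰) = ⟨P, hPm⟩ * ⟨a, ham⟩ := rfl
    rw [this, map_mul]
    exact N.mul_mem (h ⟨P, hPm⟩ ((Ideal.prime_iff_isPrime hP0).mp hP)) (ih ham)

/-- the class group is generated by the classes of the nonzero primes -/
lemma h14_top_of_primes (N : Subgroup (ClassGroup R))
    (h : ∀ P : (Ideal R)⁰, P.1.IsPrime → ClassGroup.mk0 P ∈ N) : N = ⊤ := by
  rw [eq_top_iff]
  rintro c -
  obtain ⟨I, rfl⟩ := ClassGroup.mk0_surjective c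
  exact h14_mk0_mem_of_primes N h I.1 I.2

end classgroup

lemma h14_mem_of_pow_mem_coprime {G : Type} [Group G] (N : Subgroup G) (g : G) {a b : ℕ}
    (hab : Nat.Coprime a b) (ha : g ^ a ∈ N) (hb : g ^ b ∈ N) : g ∈ N := by
  have h := Nat.gcd_eq_gcd_ab a b
  rw [hab.gcd_eq_one] at h
  have h2 : g = (g ^ a) ^ (Nat.gcdA a b) * (g ^ b) ^ (Nat.gcdB a b) := by
    rw [← zpow_natCast, ← zpow_natCast, ← zpow_mul, ← zpow_mul, ← zpow_add, ← h]
    simp
  rw [h2]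
  exact N.mul_mem (N.zpow_mem ha _) (N.zpow_mem hb _)

lemma h14_sum_Ioc (m : ℕ) : (∑ c ∈ Finset.Ioc 0 m, c) * 2 = (m + 1) * m := by
  induction m with
  | zero => simp
  | succ n ih =>
    rw [Finset.sum_Ioc_succ_top (Nat.zero_le _), add_mul, ih]
    ring

/-- the sum of the Stickelberger exponents is prime to `p` -/
lemma h14_sum_exponentSet_coprime {p : ℕ} (hp : p.Prime) (hp2 : p ≠ 2) :
    Nat.Coprime (Stickelberger.eigenvalueScalar p) p := by
  unfold Stickelberger.eigenvalueScalar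
  set m := (p - 1) / 2 with hm
  have hodd : p % 2 = 1 := by
    rcases hp.eq_two_or_odd with h | h
    · exact absurd h hp2
    · exact h
  have hset : Stickelberger.exponentSet p = Finset.Ioc 0 m := by
    ext c
    rw [Stickelberger.mem_exponentSet, Finset.mem_Ioc]
    constructor
    · rintro ⟨h1, h2⟩; exact ⟨h1, by omega⟩
    · rintro ⟨h1, h2⟩; exact ⟨h1, by omega⟩
  have hsum : (∑ c ∈ Finset.Ioc 0 m, c) * 2 = (m + 1) * m := h14_sum_Ioc m
  rw [hset]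
  rw [Nat.coprime_comm, Nat.Prime.coprime_iff_not_dvd hp]
  intro hdvd
  have h2 : p ∣ (m + 1) * m := by
    rw [← hsum]
    exact Dvd.dvd.mul_right hdvd 2
  have hp3 : 3 ≤ p := by
    have := hp.two_le
    omega
  rcases (Nat.Prime.dvd_mul hp).mp h2 with h | h
  · have := Nat.le_of_dvd (by omega) h
    omega
  · have hmpos : 0 < m := by omega
    have := Nat.le_of_dvd hmpos h
    omega

section auts

variable {p : ℕ} {K : Type} [Field K] [NumberField K] [IsCyclotomicExtension {p} ℚ K]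

/-- the automorphism `ζ ↦ ζ ^ c` -/
lemma h14_exists_aut (hp : p.Prime) (c : ℕ) (hc0 : 0 < c) (hcp : c < p) :
    ∃ δ : K ≃ₐ[ℚ] K, ∀ ζ : K, ζ ^ p = 1 → δ ζ = ζ ^ c := by
  haveI : NeZero p := ⟨hp.ne_zero⟩
  have hcop : Nat.Coprime c p := by
    rw [Nat.coprime_comm, Nat.Prime.coprime_iff_not_dvd hp]
    intro h
    have := Nat.le_of_dvd hc0 h
    omega
  refine ⟨(IsCyclotomicExtension.Rat.galEquivZMod p K).symm (ZMod.unitOfCoprime c hcop), ?_⟩
  intro ζ hζ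
  rw [IsCyclotomicExtension.Rat.galEquivZMod_apply_of_pow_eq p K _ hζ]
  rw [MulEquiv.apply_symm_apply, ZMod.coe_unitOfCoprime, ZMod.val_natCast_of_lt hcp]

lemma h14_smul_ne_bot (δ : K ≃ₐ[ℚ] K) (P : Ideal (𝓞 K)) (hP : P ≠ ⊥) : δ • P ≠ ⊥ := by
  intro h
  apply hP
  have : P = δ⁻¹ • (δ • P) := by rw [inv_smul_smul]
  rw [this, h]
  simp

end auts

section lemmaJ

variable {p : ℕ} {K L : Type} [Field K] [NumberField K] [Field L] [NumberField L] [Algebra K L]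
  [IsGalois K L] [IsGalois ℚ L] [IsCyclotomicExtension {p} ℚ K]

/-- the class of `δ⁻¹ • P` is `[P] ^ c` modulo norm classes, if `δ ζ = ζ ^ c` -/
lemma h14_class_conj (hp : p.Prime) (hp2 : p ≠ 2) (hdeg : Module.finrank K L = p)
    (hunr : UnramifiedEverywhere K L) (htw : Twist p K L) (hTP : TwoPrimeRelation p)
    (P : (Ideal (𝓞 K))⁰) (hP : P.1.IsPrime) (hn : (Ideal.absNorm P.1).Prime)
    (hnp : Ideal.absNorm P.1 ≠ p)
    (Q : Ideal (𝓞 L)) [Q.IsPrime] (hQP : Q.under (𝓞 K) = P.1) (τ : L ≃ₐ[K] L)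
    (hτ : IsArithFrobAt (𝓞 K) τ Q)
    (δ : K ≃ₐ[ℚ] K) (c : ℕ) (hδ : ∀ ζ : K, ζ ^ p = 1 → δ ζ = ζ ^ c)
    (P' : (Ideal (𝓞 K))⁰) (hP' : P'.1 = δ⁻¹ • P.1) :
    ClassGroup.mk0 P' * (ClassGroup.mk0 P ^ c)⁻¹ ∈ normClasses K L p := by
  haveI : NeZero p := ⟨hp.ne_zero⟩
  haveI : IsGalois ℚ K := IsCyclotomicExtension.isGalois {p} ℚ K
  obtain ⟨σ, hσ⟩ := AlgEquiv.restrictNormalHom_surjective L δ
  have hσ' : σ.restrictNormal K = δ := hσ
  have hζ := IsCyclotomicExtension.zeta_spec p ℚ K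
  set ζ := IsCyclotomicExtension.zeta p ℚ K with hζdef
  have hσζ : σ (algebraMap K L ζ) = algebraMap K L ζ ^ c := by
    rw [← AlgEquiv.restrictNormal_commutes σ K ζ, hσ', hδ ζ hζ.pow_eq_one, map_pow]
  have htw' := htw σ τ ζ c hζ hσζ
  have hunder : (σ⁻¹ • Q).under (𝓞 K) = P'.1 := by
    rw [h14_under_smul (K := K) σ⁻¹ Q, hP', hQP]
    have : (σ⁻¹).restrictNormal K = δ⁻¹ := by
      have := map_inv (AlgEquiv.restrictNormalHom K) σ
      rw [show (AlgEquiv.restrictNormalHom K) σ = δ from hσ] at this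
      exact this
    rw [this]
  have hfrob1 : IsArithFrobAt (𝓞 K) (τ ^ c) (σ⁻¹ • Q) := by
    apply h14_frob_conj (K := K) σ⁻¹ Q τ (τ ^ c) hτ
    intro x
    rw [inv_inv, ← h14_restrictScalars_pow, ← htw']
    rfl
  have hP'prime : P'.1.IsPrime := by
    rw [hP']
    infer_instance
  have hnorm : Ideal.absNorm P'.1 = Ideal.absNorm P.1 := by
    rw [hP', h14_absNorm_smul]
  exact hTP K L hp hp2 hdeg hunr P' P (σ⁻¹ • Q) Q (τ ^ c) τ c hP'prime hP
    (hnorm ▸ hn) hn (hnorm ▸ hnp) hnp inferInstance inferInstance hunder hQP hfrob1 hτ rfl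

/-- **Lemma J**: a prime with nontrivial Frobenius has its class in the norm classes. -/
lemma h14_mem_normClasses_of_frob_ne_one (hp : p.Prime) (hp2 : p ≠ 2)
    (hdeg : Module.finrank K L = p)
    (hunr : UnramifiedEverywhere K L) (htw : Twist p K L) (hTP : TwoPrimeRelation p)
    (hST : StickelbergerJacobi p)
    (P : (Ideal (𝓞 K))⁰) (hP : P.1.IsPrime)
    (Q : Ideal (𝓞 L)) [Q.IsPrime] (hQP : Q.under (𝓞 K) = P.1) (τ : L ≃ₐ[K] L)
    (hτ : IsArithFrobAt (𝓞 K) τ Q) (hτ1 : τ ≠ 1) :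
    ClassGroup.mk0 P ∈ normClasses K L p := by
  classical
  haveI : NeZero p := ⟨hp.ne_zero⟩
  haveI := hP
  have hP0 : P.1 ≠ ⊥ := nonZeroDivisors.ne_zero P.2
  have hQ0 : Q ≠ ⊥ := by
    intro h
    apply hP0
    rw [← hQP, h]
    exact Ideal.under_bot _ _
  have hstab : ∀ δ : K ≃ₐ[ℚ] K, δ • P.1 = P.1 → δ = 1 := by
    intro δ hδ
    rw [← hQP] at hδ
    exact h14_stab_trivial hp hdeg hunr htw Q hQ0 τ hτ hτ1 δ hδ
  obtain ⟨hn, hnp⟩ := h14_absNorm_prime hp hp2 P.1 hP0 hstab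
  have hex : ∀ c : ℕ, ∃ δ : K ≃ₐ[ℚ] K, c ∈ Stickelberger.exponentSet p →
      ∀ ζ : K, ζ ^ p = 1 → δ ζ = ζ ^ c := by
    intro c
    by_cases hc : c ∈ Stickelberger.exponentSet p
    · rw [Stickelberger.mem_exponentSet] at hc
      obtain ⟨δ, hδ⟩ := h14_exists_aut (K := K) hp c hc.1 (by omega)
      exact ⟨δ, fun _ => hδ⟩
    · exact ⟨1, fun h => absurd h hc⟩
  choose s hs using hex
  have hζ := IsCyclotomicExtension.zeta_spec p ℚ K
  have hprin := hST K hp hp2 P.1 hP hn hnp _ s hζ (fun c hc => hs c hc _ hζ.pow_eq_one)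
  set P' : ℕ → (Ideal (𝓞 K))⁰ := fun c =>
    ⟨(s c)⁻¹ • P.1, mem_nonZeroDivisors_of_ne_zero (h14_smul_ne_bot _ _ hP0)⟩ with hP'def
  have hprod : ∏ c ∈ Stickelberger.exponentSet p, ClassGroup.mk0 (P' c) = 1 := by
    rw [← map_prod, ClassGroup.mk0_eq_one_iff]
    rw [Submonoid.coe_finsetProd]
    exact hprin
  have hmem : ∏ c ∈ Stickelberger.exponentSet p,
      (ClassGroup.mk0 (P' c) * (ClassGroup.mk0 P ^ c)⁻¹) ∈ normClasses K L p := by
    apply Subgroup.prod_mem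
    intro c hc
    exact h14_class_conj hp hp2 hdeg hunr htw hTP P hP hn hnp Q hQP τ hτ (s c) c (hs c hc)
      (P' c) rfl
  rw [Finset.prod_mul_distrib, hprod, one_mul, Finset.prod_inv_distrib,
    Finset.prod_pow_eq_pow_sum] at hmem
  have h1 : ClassGroup.mk0 P ^ (Stickelberger.eigenvalueScalar p) ∈ normClasses K L p := by
    have := (normClasses K L p).inv_mem hmem
    rwa [inv_inv] at this
  have h2 : ClassGroup.mk0 P ^ p ∈ normClasses K L p :=
    Subgroup.subset_closure (Or.inr ⟨ClassGroup.mk0 P, rfl⟩)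
  exact h14_mem_of_pow_mem_coprime _ _ (h14_sum_exponentSet_coprime hp hp2) h1 h2

end lemmaJ

/-- **MAIN**: the main arithmetic statement from the three inputs. -/
theorem h14_main (p : ℕ) (hFI : FirstInequality p) (hTP : TwoPrimeRelation p)
    (hST : StickelbergerJacobi p) : NoTwistedUnramified p := by
  intro K L _ _ _ _ _ _ _ _ hp hp2 hdeg hunr htw
  apply hFI K L hp hp2 hdeg hunr
  apply h14_top_of_primes
  intro P hP
  haveI := hP
  have hP0 : P.1 ≠ ⊥ := nonZeroDivisors.ne_zero P.2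
  obtain ⟨Q, hQprime, hQP⟩ : ∃ Q : Ideal (𝓞 L), Q.IsPrime ∧ Q.under (𝓞 K) = P.1 := by
    obtain ⟨Q, -, hQ1, hQ2⟩ := Ideal.exists_ideal_over_prime_of_isIntegral P.1 (⊥ : Ideal (𝓞 L))
      (by simp [← RingHom.ker_eq_comap_bot])
    exact ⟨Q, hQ1, hQ2⟩
  haveI := hQprime
  have hQ0 : Q ≠ ⊥ := by
    intro h
    apply hP0
    rw [← hQP, h]
    exact Ideal.under_bot _ _
  obtain ⟨τ, hτ⟩ := h14_frob_exists (K := K) Q hQ0
  by_cases hτ1 : τ = 1
  · subst hτ1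
    have hs := h14_splits_of_frob_one hunr Q hQ0 hτ
    rw [hQP] at hs
    exact Subgroup.subset_closure (Or.inl ⟨P, hP, hs, rfl⟩)
  · exact h14_mem_normClasses_of_frob_ne_one hp hp2 hdeg hunr htw hTP hST P hP Q hQP τ hτ hτ1

end H14CFT
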