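import Fermat.Agent.CFT.Main
import Fermat.Agent.CFT.TL.Asm
import Fermat.Agent.CFT.TL.AFinal_helper22
import Fermat.Agent.CFT.TL.C12_helper26
import Fermat.Agent.CFT.TL.D_helper19
import Fermat.Agent.CFT.TL.E_helper22
import Fermat.Agent.CFT.TL.K_helper22
import Fermat.Agent.CFT.TL.V_helper19
import Fermat.Agent.CFT.FI.Final
import Fermat.Agent.CFT.ST.Main

/-!
# T-CFT: S14 from the two-prime relation (helper14)

Everything except `TwoPrimeRelation p` (module CR, which uses AN) is assembled here.
-/

set_option autoImplicit false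

namespace H14CFT

/-- `ExtVanishingCts p` from the two-prime relation. -/
theorem h14_s14_of_twoPrime (p : ℕ) [Fact p.Prime] (h3 : 3 ≤ p)
    (hTP : TwoPrimeRelation p) : ExtCitation.ExtVanishingCts p :=
  H14TL.h14_tl p h3 (H14TL.h26tl_cycloSpec p) (H22TL.h22tl_easyCase p) (H22TL.h22tl_twistOnV p)
    (H14TL.h19tl_inertiaTrivial p) H14TL.h19tl_placeOverPrime (H22TL.h22tl_kernelCocycle p)
    (h14_main p (H29FI.h29fi_firstInequality p) hTP (Fermat.Agent.H7ST.h7st_stickelberger p))

end H14CFT
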